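import Fermat.Agent.GAL.RED.Main
import Fermat.Agent.GAL.RED.Disc
import Fermat.Agent.GAL.RED.Param
import Fermat.Agent.Lib.RR.Main

/-!
# MR / LIFT-FF, file 1: reduction of the canonical Riemann-Roch space (abstract)

`R : RedData K F k Fb` Cartesian, good reduction (`genusFF K F = genusFF k Fb`), `r` the reduction map on places.

* `ell_le_genus`      : `deg D ≤ 2 g - 2 ⟹ ℓ(D) ≤ g`.
* `redSub_le`         : `red (L(D) ∩ O) ⊆ L(r_* D)` for EVERY divisor `D`.
* `redSub_canonical`  : `red (L(W) ∩ O) = L(r_* W)` for a canonical divisor `W`.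
* `exists_lift_at`    : a function regular at `P` lifts to an integral function which is regular on the residue disc of `P`.
* `ord_red_add_nonneg`, `ord_eq_zero_of_fibre` : orders on a residue disc.
-/

set_option autoImplicit false

noncomputable section

namespace Fermat.Agent.MR.Lift

open AlgebraicCurve Fermat.Agent.Lib.RR Fermat.Agent.GAL.RED

variable {K F k Fb : Type*} [Field K] [Field F] [Algebra K F] [Field k] [Field Fb] [Algebra k Fb]
variable [IsFF K F] [IsAlgClosed K] [IsFF k Fb] [IsAlgClosed k]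

omit [Field k] [Field Fb] [Algebra k Fb] [IsFF k Fb] [IsAlgClosed k] in
/-- (A1) `deg D ≤ 2 g - 2 ⟹ ℓ(D) ≤ g`.
PROOF. `obtain ⟨W, hdW, hlW, hRR⟩ := riemann_roch (K := K) (F := F)`; `hRR D : ℓ(D) = deg D + 1 - g + ℓ(W - D)`;
`deg (W - D) = 2 g - 2 - deg D ≥ 0`, so `ell_le_degree_add` (with `ell_zero : ell 0 = 1`) gives
`ℓ(W - D) ≤ 2 g - 2 - deg D + 1`; add up (`omega` / `linarith` after `push_cast`). -/
theorem ell_le_genus {D : Divisor K F} (h : Divisor.degree D ≤ 2 * (genusFF K F : ℤ) - 2) :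
    ell D ≤ genusFF K F := by
  obtain ⟨W, hdW, -, hRR⟩ := riemann_roch (K := K) (F := F)
  have h1 := hRR D
  have hdeg : Divisor.degree (W - D) = 2 * (genusFF K F : ℤ) - 2 - Divisor.degree D := by
    rw [map_sub, hdW]
  have h2 := ell_le_degree_add (D := W - D) (by rw [hdeg]; omega)
  rw [ell_zero, hdeg] at h2
  push_cast at h2
  omega

variable {R : RedData K F k Fb} {r : Place K F → Place k Fb}

/-- (A2) `red (L(D) ∩ O) ⊆ L(r_* D)`, every `D`.
PROOF. `f ∈ L(D)`, `f ∈ O`; if `red f = 0` trivial (`Submodule.zero_mem`).  Otherwise `mem_L_iff`: `f ≠ 0`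
(else `red f = 0`), `0 ≤ divOf f + D`; apply `mapDomain_nonneg r`, `Finsupp.mapDomain_add`, `hr.map_divOf f`. -/
theorem redSub_le (hr : IsRedMap R r) (D : Divisor K F) :
    R.redSub (riemannRochSpace D) ≤ riemannRochSpace (Finsupp.mapDomain r D) := by
  rintro _ ⟨f, hfL, hfO, rfl⟩
  by_cases h0 : R.red f = 0
  · rw [h0]
    exact Submodule.zero_mem _
  · rw [mem_L_iff] at hfL ⊢
    right
    have hf0 : f ≠ 0 := R.ne_zero_of_red_ne_zero h0
    have h1 := mapDomain_nonneg r (hfL.resolve_left hf0)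
    rw [Finsupp.mapDomain_add, hr.map_divOf f h0] at h1
    exact h1

/-- (A3) **the reduction of the canonical space**.
PROOF. `Submodule.eq_of_le_of_finrank_le (redSub_le hr W)`: `finrank (L(r_* W)) = ell (r_* W) ≤ genusFF k Fb` by (A1)
(`degree_mapDomain`, `hW.degree_eq`, `ell_zero`, `hg`), and `finrank (redSub (L W)) = finrank (L W) = ell W = genusFF K F`
(`hC _ inferInstance`-type: finite dimensionality of `riemannRochSpace W` is an instance / lemma of `Lib.RR.LFinite`;
`hW.ell_eq`).  Finite dimensionality of `riemannRochSpace (r_* W)` likewise. -/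
theorem redSub_canonical (hC : R.IsCartesian) (hg : genusFF K F = genusFF k Fb) (hr : IsRedMap R r)
    {W : Divisor K F} (hW : IsCanonical W) :
    R.redSub (riemannRochSpace W) = riemannRochSpace (Finsupp.mapDomain r W) := by
  refine Submodule.eq_of_le_of_finrank_le (redSub_le hr W) ?_
  have h1 : Module.finrank k (R.redSub (riemannRochSpace W)) = genusFF K F := by
    rw [hC _ inferInstance]
    exact hW.ell_eq
  have h2 : ell (Finsupp.mapDomain r W) ≤ genusFF k Fb := by
    apply ell_le_genus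
    rw [degree_mapDomain, hW.degree_eq, ell_zero, hg]
    simp
  rw [h1, hg]
  exact h2

/-- (A4) **local lifting**: a function regular at `P` lifts to an integral function regular on the residue disc of `P`.
PROOF. `Infinite (Place k Fb)` (`infinite_place`), so there is `P' ≠ P`.  `s` a section of `r` (`hr.surjective`,
`Function.surjInv`).  `Db := poleDiv v + n • pt P'` with `n := 3 * genusFF K F`; `D := Finsupp.mapDomain s Db`.  Then
`Finsupp.mapDomain r D = Db` (`← Finsupp.mapDomain_comp`, `r ∘ s = id`, `Finsupp.mapDomain_id`), `deg D = deg Db ≥ n`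
(`degree_mapDomain` applied to `r`; `poleDiv ≥ 0`, `degree_nonneg`, `degree_pt`, `deg_eq_one`).
`v ∈ L(Db)` (`mem_L_iff`; pointwise `ord v + max (- ord v) 0 + n * _ ≥ 0`), so by `hr.redSub_L D` there is `V ∈ L(D) ∩ O`,
`red V = v`.  If `r Q = P` then `D Q = 0`: `mapDomain_apply_eq_sum s Db Q` is a sum over `P''` with `s P'' = Q`, hence
`P'' = r (s P'') = r Q = P`, and `Db P = 0` (`poleDiv_apply`, `hv`, `P ≠ P'`).  So `ord_Q V ≥ - D Q = 0` (if `V = 0`:
`Place.ord_zero`). -/
theorem exists_lift_at (hr : IsRedMap R r) (v : Fb) (P : Place k Fb) (hv : 0 ≤ P.ord v) :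
    ∃ V : F, V ∈ R.O ∧ R.red V = v ∧ ∀ Q, r Q = P → 0 ≤ Q.ord V := by
  classical
  haveI : Infinite (Place k Fb) := infinite_place
  obtain ⟨P', hP'⟩ : ∃ P' : Place k Fb, P' ≠ P := exists_ne P
  let s : Place k Fb → Place K F := Function.surjInv hr.surjective
  have hrs : ∀ x, r (s x) = x := Function.surjInv_eq hr.surjective
  obtain ⟨Db, hDb⟩ : ∃ Db : Divisor k Fb,
      Db = poleDiv (K := k) v + (3 * genusFF K F) • pt P' := ⟨_, rfl⟩
  have hDb_apply : ∀ Q, Db Q = max (-(Q.ord v)) 0 + (3 * genusFF K F) • pt P' Q := by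
    intro Q
    rw [hDb, Finsupp.add_apply, poleDiv_apply, Finsupp.smul_apply]
  have hrD : Finsupp.mapDomain r (Finsupp.mapDomain s Db) = Db := by
    rw [← Finsupp.mapDomain_comp]
    have h1 : r ∘ s = id := funext hrs
    rw [h1, Finsupp.mapDomain_id]
  have hpole : (0 : Divisor k Fb) ≤ poleDiv (K := k) v := by
    intro Q
    rw [poleDiv_apply]
    exact le_max_right _ _
  have hdeg : 3 * (genusFF K F : ℤ) ≤ Divisor.degree (Finsupp.mapDomain s Db) := by
    rw [← degree_mapDomain r (Finsupp.mapDomain s Db), hrD, hDb, map_add, map_nsmul, degree_pt,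
      deg_eq_one]
    have h1 := degree_nonneg hpole
    simp only [nsmul_eq_mul, Nat.cast_mul, Nat.cast_ofNat, Nat.cast_one, mul_one]
    linarith
  have hpt : ∀ Q, (0 : ℤ) ≤ pt P' Q := by
    intro Q
    rw [pt, Finsupp.single_apply]
    split_ifs <;> norm_num
  have hvL : v ∈ riemannRochSpace Db := by
    rw [mem_L_iff]
    right
    intro Q
    rw [Finsupp.add_apply, divOf_apply, hDb_apply]
    have h2 : 0 ≤ (3 * genusFF K F) • pt P' Q := nsmul_nonneg (hpt Q) _
    have h3 := le_max_left (-(Q.ord v)) 0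
    show (0 : ℤ) ≤ _
    linarith
  rw [← hrD, ← hr.redSub_L _ hdeg] at hvL
  obtain ⟨V, hVL, hVO, hVv⟩ := hvL
  refine ⟨V, hVO, hVv, ?_⟩
  intro Q hQ
  have hDQ : Finsupp.mapDomain s Db Q = 0 := by
    rw [mapDomain_apply_eq_sum]
    apply Finset.sum_eq_zero
    intro P'' hP''
    have h1 : s P'' = Q := (Finset.mem_filter.1 hP'').2
    have h2 : P'' = P := by rw [← hrs P'', h1, hQ]
    rw [h2, hDb_apply, pt, Finsupp.single_apply, if_neg hP', smul_zero, add_zero,
      max_eq_right (by omega)]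
  rcases (mem_L_iff.1 hVL) with rfl | h
  · rw [Place.ord_zero]
  · have h3 := h Q
    rw [Finsupp.add_apply, divOf_apply, hDQ, add_zero] at h3
    exact h3

/-- (A5) lower bound for the order of a reduction from lower bounds on the residue disc.
PROOF. `hr.ord_red hf P`, `← Finsupp.add_apply`, `← Finsupp.mapDomain_add`, `mapDomain_apply_nonneg`. -/
theorem ord_red_add_nonneg (hr : IsRedMap R r) {f : F} (hf : R.red f ≠ 0) (W : Divisor K F)
    (P : Place k Fb) (h : ∀ Q, r Q = P → 0 ≤ Q.ord f + W Q) :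
    0 ≤ P.ord (R.red f) + Finsupp.mapDomain r W P := by
  rw [hr.ord_red hf P, ← Finsupp.add_apply, ← Finsupp.mapDomain_add]
  apply mapDomain_apply_nonneg
  intro Q hQ
  rw [Finsupp.add_apply, divOf_apply]
  exact h Q hQ

/-- (A6) a lift of a unit at `P` which is regular on the residue disc is a unit on the residue disc.
PROOF. `Disc_le_mapDomain_apply r (divOf V) P` + `hr.ord_red hV P`. -/
theorem ord_eq_zero_of_fibre (hr : IsRedMap R r) {V : F} (hV : R.red V ≠ 0) (P : Place k Fb)
    (h0 : P.ord (R.red V) = 0) (h : ∀ Q, r Q = P → 0 ≤ Q.ord V) (Q : Place K F) (hQ : r Q = P) :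
    Q.ord V = 0 := by
  have h1 := Disc_le_mapDomain_apply r (divOf (K := K) V) P
    (fun Q' hQ' => by rw [divOf_apply]; exact h Q' hQ') hQ
  rw [← hr.ord_red hV P, h0, divOf_apply] at h1
  exact le_antisymm h1 (h Q hQ)

end Fermat.Agent.MR.Lift
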