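import Fermat.Agent.GAL.FF.RH.Rational
import Fermat.Agent.S36R.KS.DerivAbs
import Fermat.Agent.Lib.PlaceEval

/-!
# MR / LIFT-FF, file 2: the canonical divisor `div (dx)` in characteristic zero (abstract)

`F / k` a function field, `k` algebraically closed of characteristic zero, `x ∈ F` transcendental.

* `exists_isCanonical_dx` : there is a canonical divisor `W` with `W Q = ord_Q (x - c) - 1` at the zeros of `x - c` and
  `W Q = ord_Q x - 1` at the poles of `x`.
* `ord_deriv_add_nonneg`  : if `V` is regular at `Q` and `dV = G dx`, `G ≠ 0`, then `ord_Q G + W Q ≥ 0`.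
-/

set_option autoImplicit false

noncomputable section

namespace Fermat.Agent.MR.Lift

open AlgebraicCurve Fermat.Agent.Lib.RR Fermat.Agent.GAL.FF IntermediateField

section RR

variable {K F : Type*} [Field K] [Field F] [Algebra K F] [IsFF K F]

/-- (C1) a divisor linearly equivalent to a canonical divisor is canonical.
PROOF. `intro D`; `hW D : h1 D = ell (W - D)`; `W + divOf f - D = (W - D) + divOf f` (`abel`), `ell_add_divOf`. -/
theorem isCanonical_add_divOf {W : Divisor K F} (hW : IsCanonical W) {f : F} (hf : f ≠ 0) :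
    IsCanonical (W + divOf f) := by
  intro D
  have h : W + divOf f - D = (W - D) + divOf f := by abel
  rw [h, ell_add_divOf _ hf]
  exact hW D

/-- (C2) genus zero: every divisor of degree `-2` is canonical.
PROOF. `obtain ⟨W, hW⟩ := exists_isCanonical`; `deg W = -2` (`hW.degree_eq`, `ell_zero`, `hg`); `deg (D - W) = 0 ≥ g`, so
`exists_effective` gives `f ≠ 0` with `0 ≤ divOf f + (D - W)`, of degree `0` (`degree_divOf`), hence `= 0`
(`eq_zero_of_nonneg_of_degree`); so `D = W + divOf f⁻¹` (`divOf_inv` or: `D = W - divOf f`; use (C1) with `f⁻¹`, the lemma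
`divOf` of an inverse is `- divOf f`: `ext v; simp [Place.ord_inv]`). -/
theorem isCanonical_of_genus_zero [IsAlgClosed K] (hg : genusFF K F = 0) {D : Divisor K F}
    (hD : Divisor.degree D = -2) : IsCanonical D := by
  obtain ⟨W, hW⟩ := exists_isCanonical (K := K) (F := F)
  have hdW : Divisor.degree W = -2 := by
    have := hW.degree_eq
    rw [ell_zero, hg] at this
    simpa using this
  have hdeg : Divisor.degree (D - W) = 0 := by
    rw [map_sub, hD, hdW, sub_self]
  obtain ⟨f, hf, hfD⟩ := exists_effective (K := K) (F := F) (D := D - W) (by rw [hdeg, hg]; simp)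
  have hz : divOf f + (D - W) = 0 := by
    apply eq_zero_of_nonneg_of_degree hfD
    rw [map_add, degree_divOf, hdeg, add_zero]
  have hDW : D = W + divOf f⁻¹ := by
    rw [divOf_inv]
    have h2 : D - W = -divOf f := eq_neg_of_add_eq_zero_right hz
    have h3 : D = W + (D - W) := by abel
    rw [h3, h2]
  rw [hDW]
  exact isCanonical_add_divOf hW (inv_ne_zero hf)

end RR

variable {k F : Type*} [Field k] [IsAlgClosed k] [Field F] [Algebra k F]

/-- (C3) only finitely many places are ramified over `k(x)`.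
PROOF. By contradiction: if `{w | e_w ≠ 1}` is infinite, `Set.Infinite.exists_subset_card_eq` gives a finset `S` of ramified places
of cardinality `n := (2 g - 2 + 2 [F : k(x)]).toNat + 1`; each term `e_w - 1 ≥ 1` (`Place.ramificationIndex_pos`), so
`∑ w ∈ S, (e_w - 1) ≥ n`, contradicting `riemann_hurwitz_le_adjoin x hx S`.  Then `Set.Finite.toFinset`. -/
theorem exists_finset_ramified (x : F) (hx : Transcendental k x) [FiniteDimensional k⟮x⟯ F]
    [Algebra.IsSeparable k⟮x⟯ F] :
    ∃ S : Finset (Place k F), ∀ w : Place k F, w ∉ S → w.ramificationIndex k⟮x⟯ = 1 := by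
  have hfin : {w : Place k F | w.ramificationIndex k⟮x⟯ ≠ 1}.Finite := by
    by_contra hinf
    obtain ⟨S, hS, hcard⟩ := Set.Infinite.exists_subset_card_eq hinf
      ((2 * (genusFF k F : ℤ) - 2 + 2 * (Module.finrank k⟮x⟯ F : ℤ)).toNat + 1)
    have h1 := riemann_hurwitz_le_adjoin x hx S
    have h2 : (S.card : ℤ) ≤ ∑ w ∈ S, ((w.ramificationIndex k⟮x⟯ : ℤ) - 1) := by
      rw [Finset.card_eq_sum_ones, Nat.cast_sum]
      refine Finset.sum_le_sum fun w hw => ?_
      have h3 : w.ramificationIndex k⟮x⟯ ≠ 1 := hS hw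
      have h4 := w.ramificationIndex_pos (F := k⟮x⟯)
      have h5 : 2 ≤ w.ramificationIndex k⟮x⟯ := by omega
      have h6 : (2 : ℤ) ≤ (w.ramificationIndex k⟮x⟯ : ℤ) := by exact_mod_cast h5
      push_cast
      omega
    rw [hcard] at h2
    push_cast at h2
    have h7 := Int.self_le_toNat (2 * (genusFF k F : ℤ) - 2 + 2 * (Module.finrank k⟮x⟯ F : ℤ))
    omega
  refine ⟨hfin.toFinset, fun w hw => ?_⟩
  by_contra h
  exact hw (hfin.mem_toFinset.2 h)

/-- (C4) **the canonical divisor `div (dx)`**, tame case.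
PROOF. `have := isFF_adjoin x hx`, `genusFF_adjoin x hx`.  `u := (AdjoinSimple.gen k x)⁻¹ : k⟮x⟯`, transcendental with `k⟮u⟯ = ⊤`
(as in the proof of `ramificationIndex_adjoin_of_neg`); `RationalAux_exists_unique_zero` gives the place `v₀` (`= ∞`) of `k⟮x⟯`.
`W₀ := -(2 : ℤ) • pt v₀` has degree `-2` (`degree_pt`, `RED.deg_eq_one` / `deg_eq_one`), so it is canonical by (C2).
`S` from (C3); `W := Divisor.pullback F W₀ + ramDiv k⟮x⟯ S` is canonical by `isCanonical_pullback_add_ramDiv`.
Values: `Divisor.pullback_apply`; `ramDiv_apply_of_mem`, `ramDiv_apply_of_notMem` (so `ramDiv .. w = e_w - 1` in both cases).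
* `ord_w x < 0`: `(w.restrict k⟮x⟯).ord u > 0` (as in `ramificationIndex_adjoin_of_neg`), so `w.restrict = v₀`, `W₀ v₀ = -2`,
  `e_w = - ord_w x` : `W w = - 2 e_w + e_w - 1 = ord_w x - 1`.
* `0 < ord_w (x - c)`: then `0 ≤ ord_w x`, so `w.restrict ≠ v₀` (else `ord_w x⁻¹ = e_w * 1 > 0`), `W₀ (w.restrict) = 0`,
  `e_w = ord_w (x - c)` (`ramificationIndex_adjoin_of_pos`). -/
theorem exists_isCanonical_dx_of_tame [IsFF k F] (x : F) (hx : Transcendental k x)
    [FiniteDimensional k⟮x⟯ F] [Algebra.IsSeparable k⟮x⟯ F]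
    (htame : ∀ w : Place k F, ((w.ramificationIndex k⟮x⟯ : ℕ) : k) ≠ 0) :
    ∃ W : Divisor k F, IsCanonical W ∧
      (∀ (Q : Place k F) (c : k), 0 < Q.ord (x - algebraMap k F c) →
        W Q = Q.ord (x - algebraMap k F c) - 1) ∧
      (∀ Q : Place k F, Q.ord x < 0 → W Q = Q.ord x - 1) := by
  classical
  have hFFx := isFF_adjoin x hx
  have hg := genusFF_adjoin x hx
  set u : k⟮x⟯ := (AdjoinSimple.gen k x)⁻¹ with hu
  have hmap : algebraMap k⟮x⟯ F u = x⁻¹ := by
    rw [hu, map_inv₀, AdjoinSimple.algebraMap_gen]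
  have htr : Transcendental k u :=
    Fermat.Agent.S24.transcendental_inv (RationalAux_transcendental_gen hx)
  have htop : k⟮u⟯ = ⊤ := by
    rw [hu, Fermat.Agent.S24.adjoin_inv_eq, RationalAux_adjoin_gen]
  obtain ⟨v₀, hv₀, huniq⟩ := RationalAux_exists_unique_zero htr htop
  have hdeg : Divisor.degree ((-2 : ℤ) • pt v₀) = -2 := by
    rw [map_zsmul, degree_pt, Fermat.Agent.GAL.RED.deg_eq_one]
    norm_num
  have hW₀c : IsCanonical ((-2 : ℤ) • pt v₀) := isCanonical_of_genus_zero hg hdeg
  obtain ⟨S, hS⟩ := exists_finset_ramified x hx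
  have hram : ∀ w : Place k F, ramDiv k⟮x⟯ S w = (w.ramificationIndex k⟮x⟯ : ℤ) - 1 := by
    intro w
    by_cases hw : w ∈ S
    · exact ramDiv_apply_of_mem hw
    · rw [ramDiv_apply_of_notMem hw, hS w hw]
      simp
  have hepos : ∀ w : Place k F, (0 : ℤ) < (w.ramificationIndex k⟮x⟯ : ℤ) := fun w => by
    exact_mod_cast w.ramificationIndex_pos (F := k⟮x⟯)
  refine ⟨Divisor.pullback F ((-2 : ℤ) • pt v₀) + ramDiv k⟮x⟯ S,
    isCanonical_pullback_add_ramDiv hW₀c S hS htame, ?_, ?_⟩
  · intro Q c hQ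
    have hne : Q.restrict k⟮x⟯ ≠ v₀ := by
      intro heq
      have h1 := Q.ord_restrict (F := k⟮x⟯) u
      rw [hmap, Q.ord_inv, heq, hv₀, mul_one] at h1
      have he := hepos Q
      have hx0 : 0 ≤ Q.ord x := by
        apply Fermat.Agent.S24.ord_nonneg_of_mem
        have h2 : x - algebraMap k F c ∈ Q.toValuationSubring :=
          Fermat.Agent.S24.mem_of_ord_nonneg Q
            (by intro h0; rw [h0, Place.ord_zero] at hQ; exact lt_irrefl _ hQ) hQ.le
        have h3 := add_mem h2 (Q.algebraMap_mem' c)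
        rwa [sub_add_cancel] at h3
      omega
    have hz : ((-2 : ℤ) • pt v₀) (Q.restrict k⟮x⟯) = 0 := by
      rw [Finsupp.smul_apply, Finsupp.single_eq_of_ne hne, smul_zero]
    rw [Finsupp.add_apply, Divisor.pullback_apply, hram, hz, mul_zero, zero_add,
      ramificationIndex_adjoin_of_pos x hx Q c hQ]
  · intro Q hQ
    have he := ramificationIndex_adjoin_of_neg x hx Q hQ
    have h1 := Q.ord_restrict (F := k⟮x⟯) u
    rw [hmap, Q.ord_inv] at h1
    have hpos : 0 < (Q.restrict k⟮x⟯).ord u := by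
      have h2 : 0 < (Q.ramificationIndex k⟮x⟯ : ℤ) * (Q.restrict k⟮x⟯).ord u := by
        rw [← h1]; omega
      exact (mul_pos_iff_of_pos_left (hepos Q)).1 h2
    have heq : Q.restrict k⟮x⟯ = v₀ := huniq _ hpos
    rw [Finsupp.add_apply, Divisor.pullback_apply, hram, heq, Finsupp.smul_apply,
      Finsupp.single_eq_same, he, smul_eq_mul]
    ring

/-- (C4') characteristic zero. -/
theorem exists_isCanonical_dx [CharZero k] [IsFF k F] (x : F) (hx : Transcendental k x)
    [FiniteDimensional k⟮x⟯ F] :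
    ∃ W : Divisor k F, IsCanonical W ∧
      (∀ (Q : Place k F) (c : k), 0 < Q.ord (x - algebraMap k F c) →
        W Q = Q.ord (x - algebraMap k F c) - 1) ∧
      (∀ Q : Place k F, Q.ord x < 0 → W Q = Q.ord x - 1) := by
  have : CharZero k⟮x⟯ := charZero_of_injective_algebraMap (algebraMap k k⟮x⟯).injective
  have hsep : Algebra.IsSeparable k⟮x⟯ F := Algebra.IsAlgebraic.isSeparable_of_perfectField
  refine exists_isCanonical_dx_of_tame x hx fun w => ?_
  exact Nat.cast_ne_zero.2 (w.ramificationIndex_pos (F := k⟮x⟯)).ne'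

variable {L : Type*} [Field L] [Algebra k L]

/-- (C5) order of `G = dV/dx` at a POLE of `x`, `V` regular non constant; characteristic zero.
PROOF. Copy of `S36R.KS.ord_of_deriv_eq` with `S24.Differential.ordDifferential_D_of_neg v htr hres x hxv` instead of
`ordDifferential_D_of_pos .. x cx hxv`. -/
theorem ord_of_deriv_eq_pole [CharZero k] (φ : F →ₐ[k] L) (d : Derivation k L L) (x : F)
    (hxt : Transcendental k x) [FiniteDimensional k⟮x⟯ F] (hx : d (φ x) ≠ 0) {u g : F}
    (h : d (φ u) = φ g * d (φ x)) (v : Place k F) (c : k)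
    (hu : 0 < v.ord (u - algebraMap k F c)) (hxv : v.ord x < 0) :
    v.ord g = v.ord (u - algebraMap k F c) - v.ord x := by
  have : CharZero k⟮x⟯ := charZero_of_injective_algebraMap (algebraMap k k⟮x⟯).injective
  have hsep : Algebra.IsSeparable k⟮x⟯ F := Algebra.IsAlgebraic.isSeparable_of_perfectField
  have hD := S36R.KS.D_eq_of_deriv_eq φ d x hx h
  have htr := S24.Differential.trdeg_eq_one x hxt
  have hres := S24.Differential.hres x hxt v
  have h1 := S24.Differential.ordDifferential_D_of_pos v htr hres u c hu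
  have h2 := S24.Differential.ordDifferential_D_of_neg v htr hres x hxv
  have hut : Transcendental k (u - algebraMap k F c) :=
    S24.Differential.transcendental_of_ord_ne_zero v hu.ne'
  have hDu : KaehlerDifferential.D k F u ≠ 0 := by
    have h3 := S24.Differential.D_ne_zero _ hut
      (S24.Differential.isAlgebraic_adjoin_of_transcendental htr hut)
    rwa [map_sub, Derivation.map_algebraMap, sub_zero] at h3
  have hg0 : g ≠ 0 := by
    rintro rfl
    exact hDu (by rw [hD, zero_smul])
  rw [hD, S24.Differential.ordDifferential_smul v htr hg0 (S24.Differential.D_ne_zero' x hxt), h2]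
    at h1
  omega

/-- the value of a regular function at a place (no `IsFF` instance needed). -/
theorem C6_exists_const [CharZero k] (x : F) (hxt : Transcendental k x) [FiniteDimensional k⟮x⟯ F]
    (Q : Place k F) {f : F} (hf : 0 ≤ Q.ord f) :
    ∃ c : k, f = algebraMap k F c ∨ 0 < Q.ord (f - algebraMap k F c) := by
  have hmem : f ∈ Q.toValuationSubring := S24.Differential.mem_of_ord_nonneg Q hf
  obtain ⟨c, hc⟩ := S24.Differential.hres x hxt Q (IsLocalRing.residue _ ⟨f, hmem⟩)
  refine ⟨c, ?_⟩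
  have h1 : ((⟨f, hmem⟩ : Q.toValuationSubring) - algebraMap k Q.toValuationSubring c) ∈
      IsLocalRing.maximalIdeal Q.toValuationSubring := by
    rw [← IsLocalRing.residue_eq_zero_iff, map_sub, sub_eq_zero, ← hc]
    rfl
  rcases (S24.mem_maximalIdeal_iff Q _).mp h1 with h | h
  · left
    exact sub_eq_zero.mp h
  · right
    exact h

/-- (C6) **local bound**: `V` regular at `Q`, `dV = G dx`, `G ≠ 0` ⟹ `ord_Q G + ord_Q (dx) ≥ 0`.
PROOF. `c := Lib.PlaceEval.ev Q V`; `Lib.PlaceEval.ord_sub_ev_pos Q hV : V = algebraMap c ∨ 0 < ord_Q (V - c)`.  In the first case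
`d (φ V) = 0` (`φ.commutes`, `Derivation.map_algebraMap`), so `φ G * d (φ x) = 0`, `G = 0`: contradiction.  In the second case:
if `Q.ord x < 0`: (C5) and `hWp`; otherwise `cx := ev Q x`, `0 < ord_Q (x - cx)` (`x` is transcendental, so not constant),
`S36R.KS.ord_of_deriv_eq` and `hWz`; `omega`. -/
theorem ord_deriv_add_nonneg [CharZero k] (φ : F →ₐ[k] L) (d : Derivation k L L) (x : F)
    (hxt : Transcendental k x) [FiniteDimensional k⟮x⟯ F] (hx : d (φ x) ≠ 0) {V G : F}
    (h : d (φ V) = φ G * d (φ x)) (hG : G ≠ 0) (Q : Place k F) (hV : 0 ≤ Q.ord V) (n : ℤ)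
    (hWz : ∀ c : k, 0 < Q.ord (x - algebraMap k F c) → n = Q.ord (x - algebraMap k F c) - 1)
    (hWp : Q.ord x < 0 → n = Q.ord x - 1) :
    0 ≤ Q.ord G + n := by
  obtain ⟨c, hc | hc⟩ := C6_exists_const x hxt Q hV
  · exfalso
    rw [hc, φ.commutes, Derivation.map_algebraMap] at h
    rcases mul_eq_zero.mp h.symm with h1 | h1
    · exact hG ((map_eq_zero φ).mp h1)
    · exact hx h1
  · by_cases hxQ : Q.ord x < 0
    · have h1 := ord_of_deriv_eq_pole φ d x hxt hx h Q c hc hxQ
      have h2 := hWp hxQ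
      omega
    · obtain ⟨cx, hcx | hcx⟩ := C6_exists_const x hxt Q (not_lt.mp hxQ)
      · exfalso
        exact hxt (hcx ▸ isAlgebraic_algebraMap cx)
      · have h1 := S36R.KS.ord_of_deriv_eq φ d x hxt hx h Q c cx hc hcx
        have h2 := hWz cx hcx
        omega

end Fermat.Agent.MR.Lift
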