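import Fermat.Agent.MR.Lift.Contract
import Fermat.Agent.MR.Lift.Abs
import Fermat.Agent.MR.Lift.Canon
import Fermat.Agent.S36R.KS.Lifted

/-!
# MR / LIFT-FF, file 3: the statement `FFOutStatement`

`v ∈ E k M` (`M` neat), all orders divisible by `p`.  Then `θ v / v = f̄ θ j̄` for a Gauss integral `f ∈ FN M` with `f dj`
holomorphic.
-/

set_option autoImplicit false

noncomputable section

namespace Fermat.Agent.MR.Lift

open ModularCurve AlgebraicCurve Fermat.Agent.S24 Fermat.Agent.GAL Fermat.Agent.GAL.Gauss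
  Fermat.Agent.GAL.RED Fermat.Agent.DR.Gal Fermat.Agent.DR.Conc Fermat.Agent.Lib.RR
  Fermat.Agent.S36R.KS

/-- a uniformiser. -/
theorem exists_ord_eq_one {K F : Type*} [Field K] [Field F] [Algebra K F] [Lib.RR.IsFF K F]
    [IsAlgClosed K] (P : Place K F) : ∃ π : F, P.ord π = 1 := by
  have : Infinite (Place K F) := RED.infinite_place
  obtain ⟨P', hP'⟩ := exists_ne P
  obtain ⟨t, -, ht⟩ := exists_param (K := K) (F := F) hP'.symm (2 * genusFF K F + 1) le_rfl
  exact ⟨t, ht⟩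

/-- `L(W) ⊆ LW`. -/
theorem mem_LW_of_mem_L {K F : Type*} [Field K] [Field F] [Algebra K F] [Lib.RR.IsFF K F] (x : F)
    {W : Divisor K F}
    (hWz : ∀ (Q : Place K F) (c : K), 0 < Q.ord (x - algebraMap K F c) →
      W Q = Q.ord (x - algebraMap K F c) - 1)
    (hWp : ∀ Q : Place K F, Q.ord x < 0 → W Q = Q.ord x - 1) {f : F}
    (hf : f ∈ riemannRochSpace W) : f ∈ LW K x := by
  rcases mem_L_iff.1 hf with h | h
  · exact Or.inl h
  · refine Or.inr fun Q => ⟨fun c hc => ?_, fun hQ => ?_⟩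
    · have := h Q
      rw [Finsupp.add_apply, divOf_apply, hWz Q c hc] at this
      exact this
    · have := h Q
      rw [Finsupp.add_apply, divOf_apply, hWp Q hQ] at this
      exact this

variable (A : ValuationSubring Kbar) (M : ℕ) [NeZero M]
  (hM : ((M : ℕ) : IsLocalRing.ResidueField ↥A) ≠ 0)

set_option quotPrecheck false in
local notation "𝕜" => IsLocalRing.ResidueField ↥A

/-- **the local bound**. -/
theorem local_bound (p : ℕ) [Fact p.Prime] [CharP 𝕜 p] [Lib.RR.IsFF Kbar (FN M)] [IsAlgClosed 𝕜]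
    [Lib.RR.IsFF 𝕜 (Igusa.E 𝕜 M)]
    (r : Place Kbar (FN M) → Place 𝕜 (Igusa.E 𝕜 M)) (hr : IsRedMap (RM A M hM) r)
    (W : Divisor Kbar (FN M))
    (hWz : ∀ (Q : Place Kbar (FN M)) (c : Kbar), 0 < Q.ord (jF M - algebraMap Kbar (FN M) c) →
      W Q = Q.ord (jF M - algebraMap Kbar (FN M) c) - 1)
    (hWp : ∀ Q : Place Kbar (FN M), Q.ord (jF M) < 0 → W Q = Q.ord (jF M) - 1)
    (v gv : Igusa.E 𝕜 M) (hv : v ≠ 0) (hgv0 : gv ≠ 0)
    (hgv : theta (v : LaurentSeries 𝕜) = (gv : LaurentSeries 𝕜) * theta (jqModC 𝕜))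
    (P : Place 𝕜 (Igusa.E 𝕜 M)) (hP : (p : ℤ) ∣ P.ord v) :
    0 ≤ P.ord (gv / v) + Finsupp.mapDomain r W P := by
  have hfd := finiteDimensional_jF M
  have hsep := Level_isSeparable (K := Kbar) (jF M)
  have hj : ((jF M : FN M) : LaurentSeries Kbar) = jqModC Kbar := Igusa.LevelDeg_coeffEmb_jq
  obtain ⟨m, hm⟩ := hP
  obtain ⟨π, hπ⟩ := exists_ord_eq_one P
  have hπ0 : π ≠ 0 := by
    rintro rfl
    rw [Place.ord_zero] at hπ
    exact zero_ne_one hπ
  set w : Igusa.E 𝕜 M := π ^ m with hw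
  have hw0 : w ≠ 0 := zpow_ne_zero _ hπ0
  have hwp0 : w ^ p ≠ 0 := pow_ne_zero _ hw0
  have hordw : P.ord (w ^ p) = P.ord v := by
    rw [RED.ord_pow, hw, Place.ord_zpow, hπ, hm, mul_one]
  -- the unit `v'`
  set v' : Igusa.E 𝕜 M := v / w ^ p with hv'
  set g' : Igusa.E 𝕜 M := gv / w ^ p with hg'
  have hv'0 : v' ≠ 0 := div_ne_zero hv hwp0
  have hg'0 : g' ≠ 0 := div_ne_zero hgv0 hwp0
  have hordv' : P.ord v' = 0 := by
    rw [hv', RED.ord_div P hv hwp0, hordw, sub_self]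
  have hquot : g' / v' = gv / v := by
    rw [hg', hv']
    field_simp
  -- `θ v' = g' θ j̄`
  have hpL : ((p : ℕ) : LaurentSeries 𝕜) = 0 := by
    rw [← map_natCast (HahnSeries.C : 𝕜 →+* LaurentSeries 𝕜), CharP.cast_eq_zero 𝕜 p, map_zero]
  have hθwp : theta ((w ^ p : Igusa.E 𝕜 M) : LaurentSeries 𝕜) = 0 := by
    have : ((w ^ p : Igusa.E 𝕜 M) : LaurentSeries 𝕜) = (w : LaurentSeries 𝕜) ^ p := rfl
    rw [this, theta_pow, hpL, zero_mul, zero_mul]
  have hwpL : ((w ^ p : Igusa.E 𝕜 M) : LaurentSeries 𝕜) ≠ 0 := fun h => hwp0 (Subtype.ext h)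
  have hvv' : (v : LaurentSeries 𝕜) =
      ((w ^ p : Igusa.E 𝕜 M) : LaurentSeries 𝕜) * (v' : LaurentSeries 𝕜) := by
    have : v = w ^ p * v' := by rw [hv']; field_simp
    exact congrArg Subtype.val this
  have hgg' : (gv : LaurentSeries 𝕜) =
      ((w ^ p : Igusa.E 𝕜 M) : LaurentSeries 𝕜) * (g' : LaurentSeries 𝕜) := by
    have : gv = w ^ p * g' := by rw [hg']; field_simp
    exact congrArg Subtype.val this
  have hθv' : theta (v' : LaurentSeries 𝕜) = (g' : LaurentSeries 𝕜) * theta (jqModC 𝕜) := by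
    have h1 := hgv
    rw [hvv', theta_mul, hθwp, mul_zero, add_zero, hgg', mul_assoc] at h1
    exact mul_left_cancel₀ hwpL h1
  -- lift
  obtain ⟨V, hVO, hVred, hVreg⟩ := exists_lift_at hr v' P hordv'.ge
  obtain ⟨G, hG⟩ := exists_theta_eq (modularFunctionFieldBar M) (jF M) hj V
  obtain ⟨hGO, hGred⟩ := red_dj A M hM V G hVO hG
  have hGred' : (RM A M hM).red G = g' := by
    apply Subtype.ext
    rw [hVred, hθv'] at hGred
    exact (mul_right_cancel₀ (theta_jqModC_ne_zero 𝕜) hGred).symm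
  have hVr0 : (RM A M hM).red V ≠ 0 := by rw [hVred]; exact hv'0
  have hV0 : V ≠ 0 := by
    rintro rfl
    exact hVr0 (RM A M hM).red_zero
  have hG0 : G ≠ 0 := by
    rintro rfl
    rw [(RM A M hM).red_zero] at hGred'
    exact hg'0 hGred'.symm
  have hfred : (RM A M hM).red (G / V) = gv / v := by
    rw [(RM A M hM).red_div hGO hVr0, hGred', hVred, hquot]
  have hfr0 : (RM A M hM).red (G / V) ≠ 0 := by
    rw [hfred]
    exact div_ne_zero hgv0 hv
  rw [← hfred]
  refine ord_red_add_nonneg hr hfr0 W P fun Q hQ => ?_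
  have hVQ : Q.ord V = 0 :=
    ord_eq_zero_of_fibre hr hVr0 P (by rw [hVred]; exact hordv') hVreg Q hQ
  have hθj : (thetaAlg (R := Kbar)) ((modularFunctionFieldBar M).val (jF M)) ≠ 0 := by
    show theta ((jF M : FN M) : LaurentSeries Kbar) ≠ 0
    rw [hj]
    exact theta_jqModC_ne_zero Kbar
  have hGQ := ord_deriv_add_nonneg (modularFunctionFieldBar M).val (thetaAlg (R := Kbar)) (jF M)
    (transcendental_jF M) hθj (V := V) (G := G) (by rw [← hj] at hG; exact hG) hG0 Q hVQ.ge (W Q)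
    (hWz Q) (hWp Q)
  rw [RED.ord_div Q hG0 hV0, hVQ, sub_zero]
  exact hGQ

/-- **(LIFT-FF)**. -/
theorem ffOut : FFOutStatement := by
  intro M p _ _ hp hneat A hA hM v hv hdiv
  have : Fact p.Prime := ⟨hp⟩
  have hchar : CharP (kk A) p := Hecke.charP_residueField A hp hA
  have : Lib.RR.IsFF Kbar (FN M) := Fermat.Agent.GAL.Desc.isFF_FF_Kbar M
  have := Igusa.isAlgClosed_residueField A
  have := Igusa.isFF_E (kk A) M hM
  have hfd := finiteDimensional_jF M
  have hsepb := Igusa.isSeparable_jb (kk A) M hM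
  have hg := goodRed_of_neat A M hM Igusa.cuspUpper Igusa.cuspLower hneat
  obtain ⟨r, hr⟩ := RED.exists_isRedMap (RM A M hM) (RM_isCartesian A M hM) hg
  obtain ⟨W, hW, hWz, hWp⟩ := exists_isCanonical_dx (jF M) (transcendental_jF M)
  obtain ⟨gv, hgv⟩ := exists_theta_eq (modularFunctionFieldFullC (kk A) M) (Igusa.jb (kk A) M) rfl v
  have key : gv / v ∈ riemannRochSpace (Finsupp.mapDomain r W) := by
    rw [mem_L_iff]
    by_cases hgv0 : gv = 0
    · left
      rw [hgv0, zero_div]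
    · right
      intro P
      rw [Finsupp.add_apply, divOf_apply]
      exact local_bound A M hM p r hr W hWz hWp v gv hv hgv0 hgv P (hdiv P)
  rw [← redSub_canonical (RM_isCartesian A M hM) hg hr hW] at key
  obtain ⟨f, hfW, hfO, hred⟩ := key
  refine ⟨f, hfO, mem_LW_of_mem_L (jF M) hWz hWp hfW, ?_⟩
  rw [hred, hgv]
  have hvL : (v : LaurentSeries (kk A)) ≠ 0 := fun h => hv (Subtype.ext h)
  have : ((gv / v : Igusa.E (kk A) M) : LaurentSeries (kk A)) =
      (gv : LaurentSeries (kk A)) / (v : LaurentSeries (kk A)) := rfl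
  rw [this]
  field_simp

end Fermat.Agent.MR.Lift
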