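import Fermat.Agent.MR.Lift.HolDiff
import Fermat.Agent.MR.Lift.Tr.Conc
import Fermat.Agent.MR.Lift.Tr.Integral
import Fermat.Agent.S17.Unr.Infty
import Fermat.Agent.S36R.KS.Kappa

/-!
# MR / Lift : `LiftStatement` from the contracts `FFOutStatement` (LIFT-FF) and `L4Statement` (LIFT-MF, L4')
-/

set_option autoImplicit false
set_option linter.style.haveILetI false

noncomputable section

namespace Fermat.Agent.MR.Lift

open AlgebraicCurve ModularCurve Fermat.Agent.S24 Fermat.Agent.GAL Fermat.Agent.GAL.RED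
  Fermat.Agent.GAL.Gauss Fermat.Agent.DR Fermat.Agent.DR.Gal Fermat.Agent.S36R.KS

/-! ### the degree of `F(M) / F(M')` is prime to `p` -/

theorem not_dvd_finrankAlong {M' M p : ℕ} [NeZero M'] [NeZero M] (hp : p.Prime) (h5 : 5 ≤ p)
    (h : M' ∣ M) (h4 : M ∣ 4 * M') : ¬ p ∣ finrankAlong Kbar (lvl h) := by
  haveI : NeZero (4 * M') := ⟨mul_ne_zero (by norm_num) (NeZero.ne M')⟩
  have h1 := finrankAlong_lvl_mul h
  have h2 := finrankAlong_lvl_mul h4
  have hpos := DegreeAlpha.dedekindPsi_pos M'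
  intro hd
  have h3 : finrankAlong Kbar (lvl h4) * finrankAlong Kbar (lvl h) * dedekindPsi M' =
      dedekindPsi (4 * M') := by rw [mul_assoc, h1, h2]
  have h6 : p ∣ 4 ∨ p ∣ 6 := by
    rcases dedekindPsi_four_mul M' with e | e
    · left
      rw [e] at h3
      rw [← Nat.eq_of_mul_eq_mul_right hpos h3]
      exact Dvd.dvd.mul_left hd _
    · right
      rw [e] at h3
      rw [← Nat.eq_of_mul_eq_mul_right hpos h3]
      exact Dvd.dvd.mul_left hd _
  rcases h6 with h' | h'
  · have := Nat.le_of_dvd (by norm_num) h'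
    omega
  · have h7 : p ∣ 2 * 3 := by simpa using h'
    rcases (Nat.Prime.dvd_mul hp).1 h7 with h'' | h''
    · have := Nat.le_of_dvd (by norm_num) h''
      omega
    · have := Nat.le_of_dvd (by norm_num) h''
      omega

/-! ### the series `f θ j` for `f dj` holomorphic -/

theorem coe_jF_eq (N : ℕ) [NeZero N] :
    ((jF N : FN N) : LaurentSeries Kbar) = jqModC Kbar := Igusa.LevelDeg_coeffEmb_jq

theorem order_jF (N : ℕ) [NeZero N] : ((jF N : FN N) : LaurentSeries Kbar).order = -1 := by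
  show (coeffEmb Kbar jq).order = -1
  have hne : coeffEmb Kbar jq ≠ 0 := by
    intro h0
    have h1 := congrArg (fun s : LaurentSeries Kbar => s.coeff (-1)) h0
    simp only [coeffEmb_coeff, coeff_jq_neg_one, map_one, HahnSeries.coeff_zero] at h1
    exact one_ne_zero h1
  apply le_antisymm
  · apply HahnSeries.order_le_of_coeff_ne_zero
    rw [coeffEmb_coeff, coeff_jq_neg_one, map_one]
    exact one_ne_zero
  · by_contra hlt
    have hlt' : (coeffEmb Kbar jq).order < -1 := not_le.1 hlt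
    have h1 := HahnSeries.coeff_order_eq_zero.not.mpr hne
    rw [coeffEmb_coeff, coeff_jq_of_lt hlt', map_zero] at h1
    exact h1 rfl

theorem le_order_theta_jF (N : ℕ) [NeZero N] :
    -1 ≤ (theta ((jF N : FN N) : LaurentSeries Kbar)).order := by
  have hne : theta ((jF N : FN N) : LaurentSeries Kbar) ≠ 0 := by
    rw [coe_jF_eq]
    exact theta_jqModC_ne_zero _
  by_contra hlt
  have hlt' : (theta ((jF N : FN N) : LaurentSeries Kbar)).order < -1 := not_le.1 hlt
  have h1 := HahnSeries.coeff_order_eq_zero.not.mpr hne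
  apply h1
  rw [theta_coeff]
  have : ((jF N : FN N) : LaurentSeries Kbar).coeff
      (theta ((jF N : FN N) : LaurentSeries Kbar)).order = 0 := by
    apply HahnSeries.coeff_eq_zero_of_lt_order
    rw [order_jF]
    exact hlt'
  rw [this, mul_zero]

/-- `f θ j` has no terms of degree `≤ 0`. -/
theorem coeff_mul_theta_of_mem_LW (N : ℕ) [NeZero N] (f : FN N) (hf : f ∈ LW Kbar (jF N)) (n : ℤ)
    (hn : n < 0) :
    ((f : LaurentSeries Kbar) * theta ((jF N : FN N) : LaurentSeries Kbar)).coeff n = 0 := by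
  by_cases hf0 : f = 0
  · rw [hf0]
    simp
  have hW := ((hf.resolve_left hf0) (S17.Unr.oo N)).2 (by
    rw [S17.Unr.oo_ord, order_jF]
    norm_num)
  rw [S17.Unr.oo_ord, S17.Unr.oo_ord, order_jF] at hW
  have hf0' : (f : LaurentSeries Kbar) ≠ 0 := fun h => hf0 (Subtype.ext h)
  have hne : theta ((jF N : FN N) : LaurentSeries Kbar) ≠ 0 := by
    rw [coe_jF_eq]
    exact theta_jqModC_ne_zero _
  apply HahnSeries.coeff_eq_zero_of_lt_order
  rw [HahnSeries.order_mul hf0' hne]
  have := le_order_theta_jF N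
  omega

/-- `θ j` is an integral series. -/
theorem theta_jF_eq_iA (A : ValuationSubring Kbar) (N : ℕ) [NeZero N] :
    theta ((jF N : FN N) : LaurentSeries Kbar) = iA A (theta (jqModC ↥A)) := by
  rw [coe_jF_eq, ← iA_jqModC A, iA, theta_coeffMap]

/-- **Integrality**: a Gauss-integral `f` with `f dj` holomorphic, whose `f θ j` is the expansion of a cusp form. -/
theorem exists_eq_iA_of_form (A : ValuationSubring Kbar) (N : ℕ) [NeZero N] (f : FN N)
    (hfO : (f : LaurentSeries Kbar) ∈ gRing A) (hf : f ∈ LW Kbar (jF N))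
    (G : CuspForm (CongruenceSubgroup.Gamma0 N) 2)
    (hG : ∀ n : ℕ, ModularFormClass.qCoeff G n =
      iota (((f : LaurentSeries Kbar) * theta ((jF N : FN N) : LaurentSeries Kbar)).coeff (n : ℤ))) :
    ∃ z : LaurentSeries ↥A,
      (f : LaurentSeries Kbar) * theta ((jF N : FN N) : LaurentSeries Kbar) = iA A z := by
  set x := (f : LaurentSeries Kbar) * theta ((jF N : FN N) : LaurentSeries Kbar) with hx
  have hxg : x ∈ gRing A := by
    rw [hx, theta_jF_eq_iA A]
    exact (gRing A).mul_mem hfO (iA_mem_gRing A _)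
  have hneg : ∀ n : ℤ, n < 0 → x.coeff n = 0 := coeff_mul_theta_of_mem_LW N f hf
  rcases exists_max_coeff A N G (fun n => x.coeff (n : ℤ)) hG with h0 | ⟨t₀, ht₀, hmax⟩
  · refine ⟨0, ?_⟩
    rw [map_zero]
    ext n
    rcases lt_or_ge n 0 with hn | hn
    · rw [hneg n hn, HahnSeries.coeff_zero]
    · obtain ⟨m, rfl⟩ := Int.eq_ofNat_of_zero_le hn
      rw [h0 m, HahnSeries.coeff_zero]
  · refine exists_eq_iA_of_max A x hxg (t₀ : ℤ) ht₀ (fun n => ?_)
    rcases lt_or_ge n 0 with hn | hn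
    · rw [hneg n hn, zero_div]
      exact A.zero_mem
    · obtain ⟨m, rfl⟩ := Int.eq_ofNat_of_zero_le hn
      exact hmax m

/-! ### assembly -/

/-- **`LiftStatement`** from the two contracts. -/
theorem liftStatement_of (hFF : FFOutStatement) (hL4 : L4Statement) : MR.LiftStatement := by
  intro M' M p _ _ _ hp hpM' hpM h5 h4 hMd hM4 A hA u hu hPD
  have hMk := Conc.natCast_M_ne_zero A M p hp hpM hA
  have hMk' := Conc.natCast_M_ne_zero A M' p hp hpM' hA
  have hvv' := coe_R1_red_lvl A p hp hpM' hpM hA hMd u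
  have hu' := (R1_red_lvl_ne_zero_iff A p hp hpM' hpM hA hMd u).1 hu
  obtain ⟨f, hfO, hfW, hf⟩ := hFF M p hp (Or.inl h4) A hA hMk _ hu hPD
  rw [hvv'] at hf
  set v' := (Conc.R1 A M' p hp hpM' hA).red u with hv'
  have hv0 : (v' : LaurentSeries (kk A)) ≠ 0 := fun h => hu' (Subtype.ext h)
  have hθ0 : theta (jqModC (kk A)) ≠ 0 := theta_jqModC_ne_zero _
  haveI := Igusa.isSeparable_jb (kk A) M' hMk'
  obtain ⟨g, hg⟩ := exists_theta_eq (modularFunctionFieldFullC (kk A) M') (Igusa.jb (kk A) M') rfl v'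
  have hy : (((Conc.RM A M hMk).red f : Igusa.E (kk A) M) : LaurentSeries (kk A)) =
      ((g * v'⁻¹ : Igusa.E (kk A) M') : LaurentSeries (kk A)) := by
    have h1 : (((Conc.RM A M hMk).red f : Igusa.E (kk A) M) : LaurentSeries (kk A)) *
        (v' : LaurentSeries (kk A)) = (g : LaurentSeries (kk A)) := by
      apply mul_right_cancel₀ hθ0
      rw [← hg, ← hf]
      ring
    show _ = (g : LaurentSeries (kk A)) * (v' : LaurentSeries (kk A))⁻¹
    rw [← h1, mul_assoc, mul_inv_cancel₀ hv0, mul_one]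
  have hdeg : ((finrankAlong Kbar (lvl hMd) : ℕ) : kk A) ≠ 0 := by
    haveI := Hecke.charP_residueField A hp hA
    rw [Ne, CharP.cast_eq_zero_iff (kk A) p]
    exact not_dvd_finrankAlong hp h5 hMd hM4
  obtain ⟨f', hf'O, hf'W, hf'r⟩ := exists_descend A hMd hMk' hMk hdeg f hfO hfW _ hy
  obtain ⟨G, hG⟩ := hL4 M' f' hf'W
  have hf'g : (f' : LaurentSeries Kbar) ∈ gRing A := (Conc.mem_RM_O_iff A M' hMk' f').1 hf'O
  obtain ⟨z, hz⟩ := exists_eq_iA_of_form A M' f' hf'g hf'W G hG
  refine ⟨G, fun n => z.coeff (n : ℤ), fun n => ?_, fun n => ?_⟩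
  · rw [hG n, hz]
    rfl
  · -- the reduction of `f' θ j`
    have h1 : gRes A ⟨iA A z, iA_mem_gRing A z⟩ = pA A z := gRes_iA A z
    have h2 : (⟨iA A z, iA_mem_gRing A z⟩ : ↥(gRing A)) =
        ⟨(f' : LaurentSeries Kbar), hf'g⟩ *
          ⟨iA A (theta (jqModC ↥A)), iA_mem_gRing A _⟩ := by
      apply Subtype.ext
      show iA A z = (f' : LaurentSeries Kbar) * iA A (theta (jqModC ↥A))
      rw [← hz, theta_jF_eq_iA A]
    rw [h2, map_mul, gRes_iA, ← Conc.coe_RM_red A M' hMk' f' hf'g, hf'r] at h1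
    have h3 : pA A (theta (jqModC ↥A)) = theta (jqModC (kk A)) := by
      rw [pA, ← theta_coeffMap, coeffMap_jqModC]
    rw [h3] at h1
    have h4 : dlogS v' = pA A z := by
      rw [← h1, dlogS, hg]
      show _ = (g : LaurentSeries (kk A)) * (v' : LaurentSeries (kk A))⁻¹ * _
      ring
    rw [h4]
    rfl

end Fermat.Agent.MR.Lift
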