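import Mathlib

/-!
# MR / LIFT, L0 (abstract part): the kernel of a derivation on a separably generated field of characteristic `p`

`k` perfect of characteristic `p`, `F / k(x)` separable algebraic.  Then `F = F^p[x]`, every element of `F` is
`∑_{i<p} c_i ^ p x ^ i`, and an element of `F` killed by a derivation `d` (with values in a field `L ⊇ F`) such that
`d x ≠ 0` is a `p`-th power in `F`.
-/

set_option autoImplicit false

namespace Fermat.Agent.MR.Lift

open Polynomial IntermediateField

section deriv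

variable {L : Type*} [Field L] (p : ℕ) [CharP L p]

/-- the Leibniz rule for an additive map. -/
def IsLeib (d : L →+ L) : Prop := ∀ a b : L, d (a * b) = a * d b + b * d a

variable {d : L →+ L}

theorem IsLeib.one (hd : IsLeib d) : d 1 = 0 := by
  have h := hd 1 1
  rw [mul_one, one_mul] at h
  exact left_eq_add.1 h

theorem IsLeib.natCast (hd : IsLeib d) (n : ℕ) : d (n : L) = 0 := by
  induction n with
  | zero => rw [Nat.cast_zero, map_zero]
  | succ n ih => rw [Nat.cast_succ, map_add, ih, hd.one, add_zero]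

theorem IsLeib.pow (hd : IsLeib d) (a : L) (n : ℕ) : d (a ^ n) = n * a ^ (n - 1) * d a := by
  induction n with
  | zero => rw [pow_zero, hd.one, Nat.cast_zero, zero_mul, zero_mul]
  | succ n ih =>
    rw [pow_succ, hd, ih, Nat.add_sub_cancel]
    rcases Nat.eq_zero_or_pos n with rfl | hn
    · simp
    · obtain ⟨m, rfl⟩ := Nat.exists_eq_succ_of_ne_zero hn.ne'
      rw [Nat.succ_sub_one, Nat.succ_eq_add_one]
      push_cast
      ring

/-- `d (Q(y)) = Q'(y) d y` when `d` kills the coefficients of `Q`. -/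
theorem deriv_eval_of_coeff (hd : IsLeib d) (y : L) (Q : L[X])
    (hQ : ∀ i, d (Q.coeff i) = 0) : d (Q.eval y) = (derivative Q).eval y * d y := by
  rw [Polynomial.derivative_eval, Polynomial.eval_eq_sum, Polynomial.sum_def, Polynomial.sum_def,
    map_sum, Finset.sum_mul]
  refine Finset.sum_congr rfl fun i _ => ?_
  rw [hd, hQ i, mul_zero, add_zero, hd.pow]
  ring

/-- a polynomial of degree `< p` with zero derivative is constant. -/
theorem eq_C_of_derivative_eq_zero' (Q : L[X]) (hdeg : Q.natDegree < p)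
    (h : derivative Q = 0) : Q = C (Q.coeff 0) := by
  ext i
  rw [coeff_C]
  split_ifs with hi
  · rw [hi]
  · obtain ⟨j, rfl⟩ := Nat.exists_eq_succ_of_ne_zero hi
    by_cases hj : j + 1 ≤ Q.natDegree
    · have h1 : (derivative Q).coeff j = 0 := by rw [h, coeff_zero]
      rw [coeff_derivative] at h1
      have h2 : ((j : L) + 1) ≠ 0 := by
        have : ((j + 1 : ℕ) : L) ≠ 0 := by
          rw [Ne, CharP.cast_eq_zero_iff L p]
          exact Nat.not_dvd_of_pos_of_lt (Nat.succ_pos j) (lt_of_le_of_lt hj hdeg)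
        simpa using this
      exact (mul_eq_zero.1 h1).resolve_right h2
    · exact coeff_eq_zero_of_natDegree_lt (not_le.1 hj)

/-- **Key lemma.** `d y ≠ 0`, `Q` of degree `< p` with coefficients killed by `d`, `d (Q(y)) = 0`: then `Q` is constant. -/
theorem eq_C_of_deriv_eval_eq_zero (hd : IsLeib d) (y : L) (hy : d y ≠ 0) :
    ∀ (n : ℕ) (Q : L[X]), Q.natDegree = n → (∀ i, d (Q.coeff i) = 0) → Q.natDegree < p →
      d (Q.eval y) = 0 → Q = C (Q.coeff 0) := by
  intro n
  induction n using Nat.strong_induction_on with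
  | _ n ih =>
    intro Q hn hQ hdeg h
    rcases Nat.eq_zero_or_pos n with h0 | h0
    · exact eq_C_of_natDegree_eq_zero (hn.trans h0)
    · have h1 : (derivative Q).eval y = 0 := by
        rw [deriv_eval_of_coeff hd y Q hQ] at h
        exact (mul_eq_zero.1 h).resolve_right hy
      have hlt : (derivative Q).natDegree < n := by
        rw [← hn]
        exact natDegree_derivative_lt (by omega)
      have hQ' : ∀ i, d ((derivative Q).coeff i) = 0 := by
        intro i
        rw [coeff_derivative, hd, hQ, mul_zero, add_zero]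
        have : d ((i : L) + 1) = 0 := by
          have h5 := hd.natCast (i + 1)
          rwa [Nat.cast_add, Nat.cast_one] at h5
        rw [this, mul_zero]
      have h2 := ih _ hlt (derivative Q) rfl hQ' (by omega) (by rw [h1, map_zero])
      have h3 : derivative Q = 0 := by
        rw [h2, eval_C] at h1
        rw [h2, h1, C_0]
      exact eq_C_of_derivative_eq_zero' p Q hdeg h3

end deriv

section field

variable {k F : Type*} [Field k] [Field F] [Algebra k F] (p : ℕ) [Fact p.Prime] [CharP k p]

/-- `F = k(x, F^p)` when `F / k(x)` is separable. -/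
theorem adjoin_pow_eq_top (x : F) [Algebra.IsSeparable k⟮x⟯ F] :
    IntermediateField.adjoin k ({x} ∪ (· ^ p) '' (Set.univ : Set F)) = ⊤ := by
  have : ExpChar k p := ExpChar.prime (Fact.out)
  have : ExpChar k⟮x⟯ p := expChar_of_injective_algebraMap (algebraMap k k⟮x⟯).injective p
  have h1 := IntermediateField.adjoin_eq_adjoin_pow_expChar_of_isSeparable' k⟮x⟯ F Set.univ p
  rw [← IntermediateField.adjoin_adjoin_left, ← h1, IntermediateField.adjoin_univ]
  rfl

/-- every element of `F` is `∑ c_i ^ p x ^ i`. -/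
theorem exists_eval₂_frobenius [PerfectField k] (x : F) [Algebra.IsSeparable k⟮x⟯ F]
    [CharP F p] (v : F) : ∃ P : F[X], P.eval₂ (frobenius F p) x = v := by
  have hv : v ∈ IntermediateField.adjoin k ({x} ∪ (· ^ p) '' (Set.univ : Set F)) := by
    rw [adjoin_pow_eq_top]; trivial
  have : PerfectRing k p := PerfectField.toPerfectRing p
  induction hv using IntermediateField.adjoin_induction with
  | mem y hy =>
    rcases hy with hy | ⟨z, -, rfl⟩
    · rw [Set.mem_singleton_iff] at hy
      exact ⟨X, by rw [eval₂_X, hy]⟩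
    · exact ⟨C z, by rw [eval₂_C]; rfl⟩
  | algebraMap c =>
    obtain ⟨c', rfl⟩ := surjective_frobenius k p c
    exact ⟨C (algebraMap k F c'), by rw [eval₂_C, frobenius_def, frobenius_def, map_pow]⟩
  | add a b _ _ ha hb =>
    obtain ⟨P, rfl⟩ := ha
    obtain ⟨Q, rfl⟩ := hb
    exact ⟨P + Q, eval₂_add _ _⟩
  | mul a b _ _ ha hb =>
    obtain ⟨P, rfl⟩ := ha
    obtain ⟨Q, rfl⟩ := hb
    exact ⟨P * Q, eval₂_mul _ _⟩
  | inv a _ ha =>
    obtain ⟨P, rfl⟩ := ha
    set a := P.eval₂ (frobenius F p) x with ha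
    refine ⟨P ^ (p - 1) * C a⁻¹, ?_⟩
    rw [eval₂_mul, eval₂_pow, eval₂_C, ← ha, frobenius_def]
    by_cases h0 : a = 0
    · have hp : p ≠ 0 := (Fact.out : p.Prime).ne_zero
      rw [h0, inv_zero, zero_pow hp, mul_zero]
    · have hp : p = (p - 1) + 1 := by have := (Fact.out : p.Prime).pos; omega
      rw [inv_pow]
      field_simp
      rw [← pow_succ, ← hp]

/-- every element of `F` is `∑_{i<p} c_i ^ p x ^ i`. -/
theorem exists_eval₂_frobenius_lt [PerfectField k] (x : F) [Algebra.IsSeparable k⟮x⟯ F]
    [CharP F p] (v : F) : ∃ P : F[X], P.natDegree < p ∧ P.eval₂ (frobenius F p) x = v := by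
  obtain ⟨P, hP⟩ := exists_eval₂_frobenius (k := k) p x v
  have hp : 0 < p := (Fact.out : p.Prime).pos
  have hmon : (X ^ p - C x : F[X]).Monic := monic_X_pow_sub_C x hp.ne'
  refine ⟨P %ₘ (X ^ p - C x), ?_, ?_⟩
  · have h1 := natDegree_modByMonic_lt P hmon (by
      intro h
      have := congrArg natDegree h
      rw [natDegree_X_pow_sub_C, natDegree_one] at this
      omega)
    rwa [natDegree_X_pow_sub_C] at h1
  · rw [eval₂_modByMonic_eq_self_of_root, hP]
    rw [eval₂_sub, eval₂_pow, eval₂_X, eval₂_C, frobenius_def, sub_self]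

/-- **L0, abstract form.** -/
theorem exists_pow_eq_of_deriv_eq_zero [PerfectField k] (x : F) [Algebra.IsSeparable k⟮x⟯ F]
    {L : Type*} [Field L] (φ : F →+* L) {d : L →+ L} (hd : IsLeib d) (hx : d (φ x) ≠ 0) (v : F)
    (hv : d (φ v) = 0) : ∃ w : F, w ^ p = v := by
  have : CharP F p := charP_of_injective_algebraMap (algebraMap k F).injective p
  have : CharP L p := charP_of_injective_ringHom φ.injective p
  obtain ⟨P, hdeg, hP⟩ := exists_eval₂_frobenius_lt (k := k) p x v
  set Q : L[X] := (P.map (frobenius F p)).map φ with hQ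
  have hcoeff : ∀ i, Q.coeff i = (φ (P.coeff i)) ^ p := by
    intro i
    rw [hQ, coeff_map, coeff_map, frobenius_def, map_pow]
  have hev : Q.eval (φ x) = φ v := by
    rw [hQ, eval_map, eval₂_hom, eval_map, hP]
  have hQd : Q.natDegree < p :=
    lt_of_le_of_lt (natDegree_map_le.trans natDegree_map_le) hdeg
  have hk : ∀ i, d (Q.coeff i) = 0 := by
    intro i
    rw [hcoeff, hd.pow, CharP.cast_eq_zero, zero_mul, zero_mul]
  have h1 := eq_C_of_deriv_eval_eq_zero p hd (φ x) hx _ Q rfl hk hQd (by rw [hev, hv])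
  refine ⟨P.coeff 0, φ.injective ?_⟩
  rw [← hev, h1, eval_C, hcoeff, map_pow]

end field

end Fermat.Agent.MR.Lift
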