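import Fermat.Agent.MR.Interface
import Fermat.Agent.MR.Lift.PthPowerAbs

/-!
# MR / LIFT, L0: an element of `E k M'` killed by `θ` is a `p`-th power
-/

set_option autoImplicit false

namespace Fermat.Agent.MR.Lift

open ModularCurve Fermat.Agent.GAL IntermediateField

/-- `θ j ≠ 0`. -/
theorem theta_jb_ne_zero (k : Type) [Field k] (M : ℕ) :
    S36R.KS.theta ((Igusa.jb k M : Igusa.E k M) : LaurentSeries k) ≠ 0 := by
  intro h
  have h1 := congrArg (fun x : LaurentSeries k => x.coeff (-1)) h
  simp only [S36R.KS.theta_coeff, HahnSeries.coeff_zero] at h1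
  have h2 : ((Igusa.jb k M : Igusa.E k M) : LaurentSeries k).coeff (-1) = 1 :=
    coeff_jqModC_neg_one k
  rw [h2] at h1
  simp at h1

/-- `θ` as an additive map. -/
noncomputable def thetaZ (k : Type) [Field k] : LaurentSeries k →+ LaurentSeries k :=
  (S36R.KS.theta (R := k)).toLinearMap.toAddMonoidHom

theorem thetaZ_apply (k : Type) [Field k] (x : LaurentSeries k) :
    thetaZ k x = S36R.KS.theta x := rfl

theorem isLeib_thetaZ (k : Type) [Field k] : IsLeib (thetaZ k) :=
  fun a b => S36R.KS.theta_mul a b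

theorem pthPowerStatement : PthPowerStatement := by
  intro M' p _ _ hp hpM k _ _ _ v hv
  have : Fact p.Prime := ⟨hp⟩
  have hM : ((M' : ℕ) : k) ≠ 0 := by
    rw [Ne, CharP.cast_eq_zero_iff k p]
    exact hpM
  have := Igusa.isSeparable_jb k M' hM
  exact exists_pow_eq_of_deriv_eq_zero (k := k) p (Igusa.jb k M')
    (modularFunctionFieldFullC k M').val.toRingHom
    (isLeib_thetaZ k) (theta_jb_ne_zero k M') v hv

end Fermat.Agent.MR.Lift
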