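import Fermat.Agent.MR.Interface
import Fermat.Agent.DR.Conc.Level

/-!
# MR / LIFT: the contract between the function field half (LIFT-FF) and the modular form half (LIFT-MF)

* `LW K x` : the functions `f` of a function field `F / K` such that the differential `f dx` is holomorphic
  (tame form: `ord_Q (dx) = ord_Q (x - c) - 1` at a zero of `x - c`, `ord_Q (dx) = ord_Q x - 1` at a pole of `x`).
  For `F = FN M`, `x = jF M`: `f ∈ LW` iff `f * θ j` is (the `q`-expansion of) a cusp form of weight two.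
* `FFOutStatement` : (LIFT-FF) if all the orders of `v ∈ E k M` are divisible by `p`, then `θ v / v = f̄ * θ j̄` for some
  Gauss-integral `f ∈ LW Kbar (jF M)`.
-/

set_option autoImplicit false

noncomputable section

namespace Fermat.Agent.MR.Lift

open AlgebraicCurve ModularCurve Fermat.Agent.S24 Fermat.Agent.GAL Fermat.Agent.GAL.RED Fermat.Agent.DR

/-- `f dx` is a holomorphic differential (tame form).  NB `Place.ord 0 = 0`, hence the case `f = 0`. -/
def LW (K : Type*) {F : Type*} [Field K] [Field F] [Algebra K F] (x : F) : Set F :=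
  {f | f = 0 ∨ ∀ Q : Place K F,
    (∀ c : K, 0 < Q.ord (x - algebraMap K F c) → 0 ≤ Q.ord f + (Q.ord (x - algebraMap K F c) - 1)) ∧
    (Q.ord x < 0 → 0 ≤ Q.ord f + (Q.ord x - 1))}

/-- **(LIFT-FF)**. -/
def FFOutStatement : Prop :=
  ∀ (M p : ℕ) [NeZero M] [NeZero p], p.Prime → (4 ∣ M ∨ 9 ∣ M) →
    ∀ (A : ValuationSubring Kbar), A.LiesOverPrime p → ∀ (hM : ((M : ℕ) : kk A) ≠ 0)
      (v : Igusa.E (kk A) M), v ≠ 0 → PDiv A M p v →
      ∃ f : FN M, f ∈ (Conc.RM A M hM).O ∧ f ∈ LW Kbar (jF M) ∧
        (((Conc.RM A M hM).red f : Igusa.E (kk A) M) : LaurentSeries (kk A)) *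
          S36R.KS.theta (jqModC (kk A)) * (v : LaurentSeries (kk A)) =
            S36R.KS.theta (v : LaurentSeries (kk A))

end Fermat.Agent.MR.Lift
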