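import Fermat.Agent.MR.Lift.FFOut

/-!
# MR / LIFT-FF, file 4: `LW K x` is the canonical Riemann-Roch space (characteristic zero): dimension `= genusFF`
-/

set_option autoImplicit false

noncomputable section

namespace Fermat.Agent.MR.Lift

open AlgebraicCurve Fermat.Agent.Lib.RR IntermediateField

variable {K F : Type*} [Field K] [IsAlgClosed K] [Field F] [Algebra K F] [Lib.RR.IsFF K F]

/-- `LW ⊆ L(W)`. -/
theorem mem_L_of_mem_LW (x : F) (hx : Transcendental K x) {W : Divisor K F}
    (hWz : ∀ (Q : Place K F) (c : K), 0 < Q.ord (x - algebraMap K F c) →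
      W Q = Q.ord (x - algebraMap K F c) - 1)
    (hWp : ∀ Q : Place K F, Q.ord x < 0 → W Q = Q.ord x - 1) {f : F}
    (hf : f ∈ LW K x) : f ∈ riemannRochSpace W := by
  rw [mem_L_iff]
  rcases hf with h | h
  · exact Or.inl h
  · refine Or.inr fun Q => ?_
    rw [Finsupp.add_apply, divOf_apply]
    show 0 ≤ Q.ord f + W Q
    by_cases hQ : Q.ord x < 0
    · rw [hWp Q hQ]
      exact (h Q).2 hQ
    · rcases Lib.PlaceEval.ord_sub_ev_pos Q (not_lt.1 hQ) with h1 | h1
      · exact absurd (h1 ▸ isAlgebraic_algebraMap _) hx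
      · rw [hWz Q _ h1]
        exact (h Q).1 _ h1

/-- **`LW K x` is a `K`-subspace of dimension `genusFF K F`** (characteristic zero, any transcendental `x`). -/
theorem exists_submodule_LW [CharZero K] (x : F) (hx : Transcendental K x)
    [FiniteDimensional K⟮x⟯ F] :
    ∃ L : Submodule K F, (∀ f, f ∈ L ↔ f ∈ LW K x) ∧ Module.Finite K L ∧
      Module.finrank K L = genusFF K F := by
  obtain ⟨W, hW, hWz, hWp⟩ := exists_isCanonical_dx x hx
  exact ⟨riemannRochSpace W,
    fun f => ⟨mem_LW_of_mem_L x hWz hWp, mem_L_of_mem_LW x hx hWz hWp⟩, inferInstance, hW.ell_eq⟩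

end Fermat.Agent.MR.Lift
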