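import Fermat.Agent.MR.Lift.Main
import Fermat.Agent.MR.Lift.FFOut
import Fermat.Agent.MR.Lift.L4.Statement

/-!
# MR / LIFT : `liftStatement : MR.LiftStatement`
-/

set_option autoImplicit false

namespace Fermat.Agent.MR.Lift

/-- **(LIFT)** -/
theorem liftStatement : MR.LiftStatement := liftStatement_of ffOut l4Statement

end Fermat.Agent.MR.Lift
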