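import Fermat.Agent.GAL.Gauss.RatJ

/-!
# MR/Lift: coefficientwise integrality

An element of the Gauss ring `gRing A ⊆ K((t))` need NOT have its coefficients in `A` (`1 / (π + t)`).
But a series which (after an embedding `j : K → L` of the coefficients) is an `L`-linear combination of finitely many series
with coefficients in `ℤ`, and which lies in `gRing A`, does.
-/

set_option autoImplicit false

noncomputable section

namespace Fermat.Agent.MR.Lift

open Fermat.Agent.GAL.Gauss

variable {K : Type*} [Field K] (A : ValuationSubring K)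

/-- a series all of whose coefficients are in `A`. -/
def ofCoeffMem (s : LaurentSeries K) (h : ∀ n, s.coeff n ∈ A) : LaurentSeries ↥A where
  coeff n := ⟨s.coeff n, h n⟩
  isPWO_support' := s.isPWO_support.mono (by
    intro n hn
    rw [Function.mem_support] at hn
    rw [HahnSeries.mem_support]
    intro h0
    exact hn (Subtype.ext h0))

theorem iA_ofCoeffMem (s : LaurentSeries K) (h : ∀ n, s.coeff n ∈ A) :
    iA A (ofCoeffMem A s h) = s := by
  ext n
  rw [iA_coeff]
  rfl

/-- **Coefficientwise integrality.** `j (s.coeff n) = ∑ i, c i * a i n` with `c i ∈ L`, `a i n ∈ ℤ`, and `s ∈ gRing A`: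
then `s` has its coefficients in `A`. -/
theorem exists_iA_of_int_comb {L : Type*} [Field L] (j : K →+* L) {ι : Type*} [Fintype ι]
    (c : ι → L) (a : ι → ℤ → ℤ)
    (s : LaurentSeries K) (hs : ∀ n, j (s.coeff n) = ∑ i, c i * (a i n : L)) (hmem : s ∈ gRing A) :
    ∃ z : LaurentSeries ↥A, iA A z = s := by
  classical
  by_cases hs0 : s = 0
  · exact ⟨0, by rw [hs0, map_zero]⟩
  -- the functional
  let lam : (ι → ℤ) →ₗ[ℤ] L :=
    { toFun := fun x => ∑ i, c i * (x i : L)
      map_add' := fun x y => by
        simp only [Pi.add_apply, Int.cast_add, mul_add, Finset.sum_add_distrib]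
      map_smul' := fun m x => by
        simp only [Pi.smul_apply, smul_eq_mul, Int.cast_mul, RingHom.id_apply, zsmul_eq_mul,
          Finset.mul_sum]
        refine Finset.sum_congr rfl fun i _ => by ring }
  let col : ℤ → (ι → ℤ) := fun n i => a i n
  have hlam : ∀ n, lam (col n) = j (s.coeff n) := fun n => (hs n).symm
  have hfg : (Submodule.span ℤ (Set.range col)).FG := IsNoetherian.noetherian _
  obtain ⟨T, hT, hspan⟩ := Submodule.fg_span_iff_fg_span_finset_subset (Set.range col) |>.mp hfg
  have hcolmem : ∀ n, col n ∈ Submodule.span ℤ (T : Set (ι → ℤ)) := fun n => by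
    rw [← hspan]; exact Submodule.subset_span ⟨n, rfl⟩
  -- the values of `lam` on `T` come from `K`
  have hTK : ∀ x ∈ T, ∃ y : K, j y = lam x := by
    intro x hx
    obtain ⟨n, rfl⟩ := hT hx
    exact ⟨_, (hlam n).symm⟩
  let val : (ι → ℤ) → K := fun x => if hx : x ∈ T then (hTK x hx).choose else 0
  have hval : ∀ x ∈ T, j (val x) = lam x := by
    intro x hx
    simp only [val, dif_pos hx]
    exact (hTK x hx).choose_spec
  have hTne : T.Nonempty := by
    by_contra hne
    rw [Finset.not_nonempty_iff_eq_empty] at hne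
    apply hs0
    ext n
    have := hcolmem n
    rw [hne, Finset.coe_empty, Submodule.span_empty, Submodule.mem_bot] at this
    have h1 := hlam n
    rw [this, map_zero] at h1
    rw [HahnSeries.coeff_zero]
    exact (map_eq_zero j).mp h1.symm
  obtain ⟨x₀, hx₀T, hmax⟩ := Finset.exists_max_image T (fun x => A.valuation (val x)) hTne
  set α : K := val x₀ with hα
  have hdiv0 : ∀ x ∈ Submodule.span ℤ (T : Set (ι → ℤ)),
      ∃ y : K, j y = lam x ∧ A.valuation y ≤ A.valuation α := by
    intro x hx
    induction hx using Submodule.span_induction with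
    | mem y hy => exact ⟨val y, hval y hy, hmax y hy⟩
    | zero => exact ⟨0, by rw [map_zero, map_zero], by rw [map_zero]; exact zero_le⟩
    | add y z _ _ hy hz =>
      obtain ⟨y', hy1, hy2⟩ := hy
      obtain ⟨z', hz1, hz2⟩ := hz
      exact ⟨y' + z', by rw [map_add, map_add, hy1, hz1],
        (A.valuation.map_add y' z').trans (max_le hy2 hz2)⟩
    | smul m y _ hy =>
      obtain ⟨y', hy1, hy2⟩ := hy
      refine ⟨(m : K) * y', by rw [map_mul, map_intCast, map_smul, hy1, zsmul_eq_mul], ?_⟩
      rw [map_mul]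
      have hm : A.valuation (m : K) ≤ 1 := (A.valuation_le_one_iff _).mpr (intCast_mem A m)
      calc A.valuation (m : K) * A.valuation y' ≤ 1 * A.valuation α := mul_le_mul' hm hy2
        _ = A.valuation α := one_mul _
  have hcoeff : ∀ n, A.valuation (s.coeff n) ≤ A.valuation α := by
    intro n
    obtain ⟨y, hy1, hy2⟩ := hdiv0 _ (hcolmem n)
    rw [hlam] at hy1
    rwa [j.injective hy1] at hy2
  have hα0 : α ≠ 0 := by
    intro h0
    apply hs0
    ext n
    have := hcoeff n
    rw [h0, map_zero, le_zero_iff, map_eq_zero] at this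
    rw [this, HahnSeries.coeff_zero]
  obtain ⟨n₀, hn₀⟩ := hT hx₀T
  have hαn : s.coeff n₀ = α := by
    apply j.injective
    rw [← hlam, hn₀, hα, hval x₀ hx₀T]
  -- the primitive series
  let w : LaurentSeries K := HahnSeries.C α⁻¹ * s
  have hwc : ∀ n, w.coeff n = s.coeff n / α := by
    intro n
    show (HahnSeries.C α⁻¹ * s).coeff n = _
    rw [HahnSeries.C_mul_eq_smul, HahnSeries.coeff_smul, smul_eq_mul, div_eq_inv_mul]
  have hwA : ∀ n, w.coeff n ∈ A := fun n => by
    rw [hwc, ← A.valuation_le_one_iff, map_div₀]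
    exact div_le_one_of_le₀ (hcoeff n) zero_le
  set z := ofCoeffMem A w hwA with hz
  have hzw : iA A z = w := iA_ofCoeffMem A w hwA
  have hpz : pA A z ≠ 0 := by
    intro h0
    have h1 : (pA A z).coeff n₀ = 0 := by rw [h0, HahnSeries.coeff_zero]
    rw [pA_coeff] at h1
    have h2 : z.coeff n₀ = 1 := by
      apply Subtype.ext
      show w.coeff n₀ = 1
      rw [hwc, hαn, div_self hα0]
    rw [h2, map_one] at h1
    exact one_ne_zero h1
  have hwmem : w ∈ gRing A := by rw [← hzw]; exact iA_mem_gRing A z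
  have hres : gRes A ⟨w, hwmem⟩ ≠ 0 := by
    rw [gRes_of_eq_iA A ⟨w, hwmem⟩ z hzw.symm]; exact hpz
  have hsw : s = HahnSeries.C α * w := by
    show s = HahnSeries.C α * (HahnSeries.C α⁻¹ * s)
    rw [← mul_assoc, ← map_mul, mul_inv_cancel₀ hα0, map_one, one_mul]
  have hαA : α ∈ A := by
    rw [← C_mul_unit_mem_iff A α ⟨w, hwmem⟩ hres]
    rw [← hsw]; exact hmem
  refine ⟨HahnSeries.C (⟨α, hαA⟩ : ↥A) * z, ?_⟩
  rw [map_mul, hzw, hsw]
  congr 1
  ext n
  rw [iA_coeff]
  rw [HahnSeries.C_apply, HahnSeries.C_apply, HahnSeries.coeff_single, HahnSeries.coeff_single]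
  split_ifs <;> rfl

end Fermat.Agent.MR.Lift
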