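import Fermat.Agent.MR.Lift.Contract

/-!
# MR / Lift : the contract of the sub-block L4' (LIFT-MF)

* `L4Statement` : at any level `N`: `f dj` holomorphic (`f ∈ LW Kbar (jF N)`, `MR/Lift/Contract.lean`) ⟹ `f θ j` is the
  `q`-expansion of a cusp form of weight two on `Γ₀(N)`.
-/

set_option autoImplicit false

noncomputable section

namespace Fermat.Agent.MR.Lift

open AlgebraicCurve ModularCurve Fermat.Agent.S24 Fermat.Agent.GAL Fermat.Agent.GAL.RED
  Fermat.Agent.DR

/-- **(LIFT-MF, L4')** -/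
def L4Statement : Prop :=
  ∀ (N : ℕ) [NeZero N] (f : FN N), f ∈ LW Kbar (jF N) →
    ∃ G : CuspForm (CongruenceSubgroup.Gamma0 N) 2, ∀ n : ℕ,
      ModularFormClass.qCoeff G n =
        iota (((f : LaurentSeries Kbar) *
          S36R.KS.theta ((jF N : FN N) : LaurentSeries Kbar)).coeff (n : ℤ))

end Fermat.Agent.MR.Lift
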